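import Fermat.Agent.S38.H509.StT
import Fermat.Agent.S38T.H593.StCorSpec

/-!
# Row S59, cell (B2), HECKE-T: the leaves IA-FREE and IA-ST-COR of type `ty`  (helper509)

VERBATIM proofs of the frozen twins of helper3 (`S38T/IA/Hecke/Spec3.lean`,
`S38T/H593/StCorSpec.lean`, origin/helper3 @166e8dc9f):

* `iaFree_T_h509 : IAFreeStatement_T`  (every odd `p`, both types at `p`), from `iaFreeT_h509`
  (`S38/H509/IAFreeOddIA.lean`);
* `iaStCor_T_h509 : H593.IAStCorStatement_T`, with `m = 1`, from `iaStCorT_h509`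
  (`S38/H509/StT.lean`) at `L = ribetLevelT p ty Smin Piv`.

The hypotheses `3 ≤ p` and `IsPTypeAt p ρbar ty` are not used.
-/

set_option autoImplicit false

open Polynomial IsLocalRing CongruenceSubgroup
open scoped MatrixGroups

namespace Fermat.Agent.S38.H509

open Fermat.Agent.S59.Arch Fermat.Agent.S59.TW.H959 Fermat.Agent.S59.TW
open Fermat.Agent.S59.TW.H653 Fermat.Agent.S59.TW.Aut Fermat.Agent.S38.IA
open Fermat.Agent.S38.IA.Hecke
open CuspForm

/-- `ribetLevelT` in terms of `pFactor`. -/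
theorem ribetLevelT_eq_pFactor_h509 (p : ℕ) (ty : PType) (Smin Piv : Finset ℕ) :
    ribetLevelT p ty Smin Piv = ribetLevel p Smin Piv * pFactor p ty := by
  cases ty <;> simp [ribetLevelT, pFactor]

/-- At the base level of Ihara avoidance of type `ty`: `pivRel V = chiRelIA_T 1 V`. -/
theorem pivRel_eq_chiRelIA_T_h509 (p : ℕ) (ty : PType) (Smin : Finset ℕ) {k r : ℕ}
    (pv : Fin k → ℕ) (qv : Fin r → ℕ) {𝒪 : Type} [CommRing 𝒪]
    (V : Submodule 𝒪 (XIA_T p ty Smin pv qv 𝒪)) :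
    pivRel p (wilesLevel p ty Smin Smin) pv qv V = chiRelIA_T p ty Smin pv qv 1 V := by
  unfold pivRel chiRelIA_T
  congr 1
  ext w
  constructor
  · rintro ⟨a₁, y, hy, rfl⟩
    refine ⟨a₁, y, hy, ?_⟩
    rw [MonoidHom.one_apply, one_smul]
    rfl
  · rintro ⟨a₁, y, hy, rfl⟩
    refine ⟨a₁, y, hy, ?_⟩
    rw [MonoidHom.one_apply, one_smul]
    rfl

/-- **IA-FREE of type `ty`, every odd `p`**: `IAFreeStatement_T` VERBATIM. -/
theorem iaFree_T_h509 : IAFreeStatement_T := by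
  intro p _ _hp5 𝒪 _ _ _ _ _ _ ρbar Smin h ty _hflat Piv hPiv k pv hpv hpvPiv n r qv hq _ PQ α _hα
    V hV
  exact iaFreeT_h509 p 𝒪 ρbar Smin h ty Piv hPiv k pv hpv hpvPiv n r qv hq PQ (UsetOf qv α) V hV

/-- **IA-ST-COR of type `ty`, every odd `p`**: `H593.IAStCorStatement_T` VERBATIM (`m = 1`). -/
theorem iaStCor_T_h509 : Fermat.Agent.S38.H593.IAStCorStatement_T := by
  intro p _ _hp5 𝒪 _ _ _ _ _ _ ρbar Smin h ty _hflat Piv hPiv k pv hpv hpvPiv n r qv hq _ PQ α _hα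
    V e hV _ _
  obtain ⟨cor, hmem, heq, hker⟩ := iaStCorT_h509 h ty Piv hPiv k pv hpv hpvPiv n r qv hq PQ α
    (ribetLevelT_eq_pFactor_h509 p ty Smin Piv) V hV e
  refine ⟨cor, 1, one_ne_zero, hmem, ?_, ?_⟩
  · intro ℓ hℓ hd hS v _
    exact heq ℓ hℓ hd hS v
  · intro v hv hz
    rw [one_smul, ← pivRel_eq_chiRelIA_T_h509]
    exact (hker v hv).mp hz

end Fermat.Agent.S38.H509
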